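import Mathlib

/-!
# NEWFORM library (helper23) — linear algebra: an eigensystem of a quotient occurs in the module

`exists_eigenvector_of_quotient`: let `T i` be commuting endomorphisms of a finite-dimensional
vector space, `F ≤ E` subspaces with `F ≠ E` and `(T i - a i) E ⊆ F` for all `i`
(so that the `T i` act on `E / F ≠ 0` through the scalars `a i`).  Then `E` contains a common
eigenvector of the `T i` with eigenvalues `a i`.  No algebraic closedness is needed.
-/

set_option autoImplicit false

namespace Fermat.Agent.Lib.Newform.H23

open Module

theorem exists_eigenvector_of_quotient {K V : Type*} [Field K] [AddCommGroup V]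
    [Module K V] [FiniteDimensional K V] {ι : Type*} (T : ι → Module.End K V)
    (hcomm : ∀ i j, Commute (T i) (T j)) (a : ι → K) :
    ∀ (E F : Submodule K V), F ≤ E → ¬ E ≤ F → (∀ i, ∀ v ∈ E, T i v - a i • v ∈ F) →
      ∃ v ∈ E, v ≠ 0 ∧ ∀ i, T i v = a i • v := by
  intro E
  induction h : finrank K E using Nat.strong_induction_on generalizing E with
  | _ d ih =>
    intro F hFE hEF hS
    by_cases hall : ∀ i, ∀ v ∈ E, T i v = a i • v
    · obtain ⟨v, hvE, hvF⟩ := Set.not_subset.mp hEF
      refine ⟨v, hvE, ?_, fun i => hall i v hvE⟩
      rintro rfl
      exact hvF F.zero_mem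
    · push Not at hall
      obtain ⟨i₀, w, hwE, hw⟩ := hall
      -- `S = T i₀ - a i₀`
      set S : Module.End K V := T i₀ - a i₀ • (1 : Module.End K V) with hSdef
      have hSapp : ∀ v, S v = T i₀ v - a i₀ • v := fun v => by simp [hSdef]
      have hScomm : ∀ i v, S (T i v) = T i (S v) := by
        intro i v
        have := congrArg (fun f : Module.End K V => f v) (hcomm i₀ i).eq
        simp only [Module.End.mul_apply] at this
        rw [hSapp, hSapp, this, map_sub, map_smul]
      have hSE : ∀ v ∈ E, S v ∈ F := fun v hv => by rw [hSapp]; exact hS i₀ v hv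
      have hSw : S w ≠ 0 := by
        rw [hSapp]
        exact fun h0 => hw (sub_eq_zero.mp h0)
      by_cases hker : E ⊓ LinearMap.ker S ≤ F
      · -- Case 2: pass to `S(E)`, `S(F)`
        have hlt : finrank K (E.map S) < finrank K E := by
          -- `S : E → E` is not surjective, hence not injective
          have hmaps : ∀ v ∈ E, S v ∈ E := fun v hv => hFE (hSE v hv)
          let SE : Module.End K E := S.restrict hmaps
          have hnotsurj : ¬ Function.Surjective SE := by
            intro hsurj
            apply hEF
            intro v hv
            obtain ⟨u, hu⟩ := hsurj ⟨v, hv⟩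
            have : S (u : V) = v := by
              have := congrArg (fun x : E => (x : V)) hu
              simpa [SE] using this
            rw [← this]
            exact hSE u u.2
          have hnotinj : ¬ Function.Injective SE := fun hinj =>
            hnotsurj (LinearMap.injective_iff_surjective.mp hinj)
          have hkerne : LinearMap.ker SE ≠ ⊥ := fun hbot =>
            hnotinj (LinearMap.ker_eq_bot.mp hbot)
          have hrange : finrank K (LinearMap.range SE) + finrank K (LinearMap.ker SE) =
              finrank K E := LinearMap.finrank_range_add_finrank_ker SE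
          have hkerpos : 0 < finrank K (LinearMap.ker SE) := by
            rw [Module.finrank_pos_iff]
            exact Submodule.nontrivial_iff_ne_bot.mpr hkerne
          have hmapeq : finrank K (E.map S) = finrank K (LinearMap.range SE) := by
            have hinj : Function.Injective (E.subtype) := E.injective_subtype
            have : (LinearMap.range SE).map E.subtype = E.map S := by
              ext x
              constructor
              · rintro ⟨y, ⟨u, rfl⟩, rfl⟩
                exact ⟨u, u.2, by simp [SE]⟩
              · rintro ⟨u, hu, rfl⟩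
                exact ⟨SE ⟨u, hu⟩, ⟨⟨u, hu⟩, rfl⟩, by simp [SE]⟩
            rw [← this]
            exact (LinearEquiv.finrank_eq (Submodule.equivMapOfInjective E.subtype hinj _)).symm
          omega
        have hFE' : F.map S ≤ E.map S := Submodule.map_mono hFE
        have hEF' : ¬ E.map S ≤ F.map S := by
          intro hle
          apply hEF
          intro u hu
          obtain ⟨f, hf, hfu⟩ := hle (Submodule.mem_map_of_mem hu)
          have hmem : u - f ∈ E ⊓ LinearMap.ker S := by
            refine ⟨E.sub_mem hu (hFE hf), ?_⟩
            show u - f ∈ LinearMap.ker S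
            rw [LinearMap.mem_ker, map_sub, hfu, sub_self]
          have := F.add_mem (hker hmem) hf
          simpa using this
        have hS' : ∀ i, ∀ v ∈ E.map S, T i v - a i • v ∈ F.map S := by
          rintro i _ ⟨u, hu, rfl⟩
          refine ⟨T i u - a i • u, hS i u hu, ?_⟩
          rw [map_sub, map_smul]
          exact congrArg (· - a i • S u) (hScomm i u)
        obtain ⟨v, hv, hv0, hveig⟩ := ih (finrank K (E.map S)) (h ▸ hlt) (E.map S) rfl
          (F.map S) hFE' hEF' hS'
        obtain ⟨u, hu, rfl⟩ := hv
        exact ⟨S u, hFE (hSE u hu), hv0, hveig⟩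
      · -- Case 1: pass to `E ∩ ker S`, `F ∩ ker S`
        have hlt : finrank K ↥(E ⊓ LinearMap.ker S) < finrank K E := by
          apply Submodule.finrank_lt_finrank_of_lt
          refine lt_of_le_of_ne inf_le_left ?_
          intro heq
          have hw' : w ∈ E ⊓ LinearMap.ker S := by rw [heq]; exact hwE
          exact hSw (LinearMap.mem_ker.mp hw'.2)
        have hFE' : F ⊓ LinearMap.ker S ≤ E ⊓ LinearMap.ker S :=
          inf_le_inf hFE le_rfl
        have hEF' : ¬ E ⊓ LinearMap.ker S ≤ F ⊓ LinearMap.ker S := fun hle =>
          hker (hle.trans inf_le_left)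
        have hS' : ∀ i, ∀ v ∈ E ⊓ LinearMap.ker S, T i v - a i • v ∈ F ⊓ LinearMap.ker S := by
          intro i v hv
          refine ⟨hS i v hv.1, ?_⟩
          have hv0 : S v = 0 := LinearMap.mem_ker.mp hv.2
          show T i v - a i • v ∈ LinearMap.ker S
          rw [LinearMap.mem_ker, map_sub, map_smul, hScomm i v, hv0]
          simp
        obtain ⟨v, hv, hv0, hveig⟩ := ih _ (h ▸ hlt) (E ⊓ LinearMap.ker S) rfl
          (F ⊓ LinearMap.ker S) hFE' hEF' hS'
        exact ⟨v, hv.1, hv0, hveig⟩

end Fermat.Agent.Lib.Newform.H23
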