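import Fermat.Agent.Lib.Newform.H23.OldEigen

/-!
# NEWFORM library (helper23) — same-level multiplicity one, from the main lemma

`multOne_of : MainLemma → MultOne` and `multOneEigen_of : MainLemma → MultOneEigen`
(hypothesis-parametrised assembly; `OldEigen`, `EigenT` are already proved).
-/

set_option autoImplicit false

open CongruenceSubgroup ModularFormClass ModularForm UpperHalfPlane

namespace Fermat.Agent.Lib.Newform.H23

open Fermat.Agent.Lib.Newform

/-- `EigenT` (adapter around helper683's E1). -/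
theorem eigenT : H958.EigenT :=
  fun _ _ hg _ hp hpN => H683.heckeTLin_eq_of_eigenform hg hp hpN

/-- `EigenU` (adapter around helper683's E1). -/
theorem eigenU : H958.EigenU :=
  fun _ _ _ hg _ hp hpN => H683.heckeULin_eq_of_eigenform hg hp hpN

/-- A good eigenvector with `a_1 = 0` has `a_n = 0` for all `n` prime to the level. -/
theorem qCoeff_eq_zero_of_coprime {N : ℕ} (h : CuspForm (Gamma0 N) 2) (a : ℕ → ℂ)
    (heig : ∀ ℓ : ℕ, ℓ.Prime → ¬ ℓ ∣ N → heckeT 2 ℓ ⇑h = a ℓ • ⇑h)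
    (h1 : qCoeff ⇑h 1 = 0) : ∀ n : ℕ, n.Coprime N → qCoeff ⇑h n = 0 := by
  intro n
  induction n using Nat.strong_induction_on with
  | _ n ih =>
    intro hcop
    rcases Nat.eq_zero_or_pos n with rfl | hn
    · exact H683.qCoeff_zero_cusp 2 h
    rcases Nat.eq_or_lt_of_le (Nat.succ_le_of_lt hn) with h' | h'
    · rw [← h']; exact h1
    · have hn1 : n ≠ 1 := by omega
      obtain ⟨p, hp, hpn⟩ := Nat.exists_prime_and_dvd hn1
      obtain ⟨m, rfl⟩ := hpn
      have hm : 0 < m := Nat.pos_of_ne_zero (by rintro rfl; simp at hn)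
      have hlt : m < p * m := by
        have := hp.one_lt
        nlinarith
      have hpN : ¬ p ∣ N := by
        intro hdvd
        have h2 : p ∣ Nat.gcd (p * m) N := Nat.dvd_gcd (dvd_mul_right p m) hdvd
        rw [hcop.gcd_eq_one] at h2
        exact hp.one_lt.ne' (Nat.dvd_one.mp h2)
      have hmcop : m.Coprime N := Nat.Coprime.coprime_dvd_left (dvd_mul_left m p) hcop
      have := H683.coeff_of_heckeT_eq h hp (a p) (heig p hp hpN) m
      rw [ih m hlt hmcop, mul_zero] at this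
      rw [mul_comm p m]
      by_cases hpm : p ∣ m
      · have hdiv : (m / p).Coprime N :=
          Nat.Coprime.coprime_dvd_left (Nat.div_dvd_of_dvd hpm) hmcop
        rw [if_pos hpm, ih (m / p) (lt_of_le_of_lt (Nat.div_le_self m p) hlt) hdiv, mul_zero,
          add_zero] at this
        exact this
      · rw [if_neg hpm, add_zero] at this
        exact this

/-- **MULT-ONE** from the main lemma. -/
theorem multOne_of (hML : MainLemma) : MultOne := by
  intro N _ f hf h heig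
  by_contra hne
  set h' : CuspForm (Gamma0 N) 2 := h - qCoeff ⇑h 1 • f with hh'
  have hh'0 : h' ≠ 0 := fun h0 => hne (sub_eq_zero.mp h0)
  have hfeig : ∀ (ℓ : ℕ) (hℓ : ℓ.Prime) (hℓN : ¬ ℓ ∣ N),
      CuspForm.heckeTLin 2 hℓ hℓN f = qCoeff ⇑f ℓ • f :=
    fun ℓ hℓ hℓN => H683.heckeTLin_eq_of_eigenform hf.1 hℓ hℓN
  have hh'eig : ∀ (ℓ : ℕ) (hℓ : ℓ.Prime) (hℓN : ¬ ℓ ∣ N),
      CuspForm.heckeTLin 2 hℓ hℓN h' = qCoeff ⇑f ℓ • h' := by
    intro ℓ hℓ hℓN
    rw [hh', map_sub, map_smul, heig ℓ hℓ hℓN, hfeig ℓ hℓ hℓN, smul_sub, smul_comm]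
  have hh'1 : qCoeff ⇑h' 1 = 0 := by
    rw [hh', H683.qCoeff_sub_cusp, H683.qCoeff_smul_cusp, hf.1.qCoeff_one, mul_one, sub_self]
  have hvanish : ∀ n : ℕ, n.Coprime N → qCoeff ⇑h' n = 0 := by
    apply qCoeff_eq_zero_of_coprime h' (fun ℓ => qCoeff ⇑f ℓ) _ hh'1
    intro ℓ hℓ hℓN
    have := congrArg (fun F : CuspForm (Gamma0 N) 2 => (⇑F : ℍ → ℂ)) (hh'eig ℓ hℓ hℓN)
    simpa using this
  obtain ⟨p, hp, hpN, G, hG, hGa⟩ :=
    oldEigen N h' hh'0 (fun ℓ => qCoeff ⇑f ℓ) hh'eig (hML N h' hvanish)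
  have hN : N ≠ 0 := NeZero.ne N
  exact hf.2 (N / p) (Nat.div_dvd_of_dvd hpN)
    (Nat.div_lt_self (Nat.pos_of_ne_zero hN) hp.one_lt).ne ⟨G, hG, hGa⟩

/-- **MULT-ONE'** from **MULT-ONE**. -/
theorem multOneEigen_of (hM : MultOne) : MultOneEigen := by
  intro N _ f g hf hg hfg
  have := hM N f hf g (fun ℓ hℓ hℓN => by
    rw [H683.heckeTLin_eq_of_eigenform hg hℓ hℓN, hfg ℓ hℓ hℓN])
  rw [hg.qCoeff_one, one_smul] at this
  exact this

end Fermat.Agent.Lib.Newform.H23
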