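import Fermat.Agent.Lib.Newform.H23.UAL
import Fermat.Agent.Lib.Newform.H923.TraceALProof
import Fermat.Agent.Lib.Newform.H683.Extract

/-!
# NEWFORM library (helper23) — extraction of a `q`-new normalized eigenform (forms side of S41)

Level `L` with `q ∥ L`, `A` an Atkin–Lehner matrix at `q`, `W = ∣ A`, `U = U_q`.
The `q`-new subspace `K = ker (1 + U W) ∩ ker (W + U)` (kernel of the two traces to level `L / q`)
is stable under ALL Hecke operators `T_p` (`p ∤ L`) and `U_p` (`p ∣ L`), and `U² = 1` on it.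
Hence any nonzero `f ∈ K` which is an eigenvector of the `T_ℓ`, `ℓ ∈ P`, yields a normalized
eigenform `g ∈ K` with the same eigenvalues and `a_q(g)² = 1` (`g.IsNewAt q`).
-/

set_option autoImplicit false

open CongruenceSubgroup ModularFormClass ModularForm UpperHalfPlane
open scoped MatrixGroups ModularForm

namespace Fermat.Agent.Lib.Newform.H23

open Fermat.Agent.Lib.Newform
open Fermat.Agent.Lib.Newform.H923

section

variable {q M : ℕ} [NeZero (q * M)]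

/-- The `q`-new subspace of `S₂(Γ₀(q M))` (kernel of the two traces), for an Atkin–Lehner
matrix `A` at `q`. -/
noncomputable def qNewSub (hq : q ≠ 0) {A : GL (Fin 2) ℝ} (hA : IsAL q M A) :
    Submodule ℂ (CuspForm (Gamma0 (q * M)) 2) :=
  LinearMap.ker (LinearMap.id + (CuspForm.heckeULin 2 (Dvd.intro M rfl)).comp (alLin 2 hq hA)) ⊓
    LinearMap.ker (alLin 2 hq hA + CuspForm.heckeULin 2 (Dvd.intro M rfl))

theorem mem_qNewSub (hq : q ≠ 0) {A : GL (Fin 2) ℝ} (hA : IsAL q M A)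
    (h : CuspForm (Gamma0 (q * M)) 2) :
    h ∈ qNewSub hq hA ↔
      ((⇑h : ℍ → ℂ) + heckeU 2 q (⇑h ∣[(2 : ℤ)] A) = 0 ∧
        (⇑h ∣[(2 : ℤ)] A) + heckeU 2 q ⇑h = 0) := by
  unfold qNewSub
  rw [Submodule.mem_inf, LinearMap.mem_ker, LinearMap.mem_ker]
  constructor
  · rintro ⟨h1, h2⟩
    constructor
    · have := congrArg (fun F : CuspForm (Gamma0 (q * M)) 2 => (⇑F : ℍ → ℂ)) h1
      simpa using this
    · have := congrArg (fun F : CuspForm (Gamma0 (q * M)) 2 => (⇑F : ℍ → ℂ)) h2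
      simpa using this
  · rintro ⟨h1, h2⟩
    constructor
    · apply DFunLike.coe_injective
      simpa using h1
    · apply DFunLike.coe_injective
      simpa using h2

/-- `W² = 1` on cusp forms. -/
theorem alLin_alLin (hq : q ≠ 0) {A : GL (Fin 2) ℝ} (hA : IsAL q M A)
    (h : CuspForm (Gamma0 (q * M)) 2) : alLin 2 hq hA (alLin 2 hq hA h) = h := by
  apply DFunLike.coe_injective
  rw [coe_alLin, coe_alLin]
  exact slash_AL_slash_AL hq (invUnder_of_slashInvariantFormClass h) hA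

/-- An operator commuting with `W` and `U_q` preserves the `q`-new subspace. -/
theorem qNewSub_stable_of_commute (hq : q ≠ 0) {A : GL (Fin 2) ℝ} (hA : IsAL q M A)
    (X : Module.End ℂ (CuspForm (Gamma0 (q * M)) 2))
    (hXW : ∀ h, X (alLin 2 hq hA h) = alLin 2 hq hA (X h))
    (hXU : ∀ h, X (CuspForm.heckeULin 2 (Dvd.intro M rfl) h) =
      CuspForm.heckeULin 2 (Dvd.intro M rfl) (X h))
    (h : CuspForm (Gamma0 (q * M)) 2) (hh : h ∈ qNewSub hq hA) : X h ∈ qNewSub hq hA := by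
  unfold qNewSub at hh ⊢
  rw [Submodule.mem_inf, LinearMap.mem_ker, LinearMap.mem_ker] at hh ⊢
  obtain ⟨h1, h2⟩ := hh
  constructor
  · have := congrArg X h1
    simp only [LinearMap.add_apply, LinearMap.id_apply, LinearMap.comp_apply, map_add,
      map_zero] at this ⊢
    rw [← hXW, ← hXU]
    exact this
  · have := congrArg X h2
    simp only [LinearMap.add_apply, map_add, map_zero] at this ⊢
    rw [← hXW, ← hXU]
    exact this

/-- `W` preserves the `q`-new subspace. -/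
theorem alLin_mem_qNewSub (hq : q ≠ 0) {A : GL (Fin 2) ℝ} (hA : IsAL q M A)
    (h : CuspForm (Gamma0 (q * M)) 2) (hh : h ∈ qNewSub hq hA) :
    alLin 2 hq hA h ∈ qNewSub hq hA := by
  unfold qNewSub at hh ⊢
  rw [Submodule.mem_inf, LinearMap.mem_ker, LinearMap.mem_ker] at hh ⊢
  obtain ⟨h1, h2⟩ := hh
  simp only [LinearMap.add_apply, LinearMap.id_apply, LinearMap.comp_apply] at h1 h2 ⊢
  rw [alLin_alLin]
  exact ⟨h2, h1⟩

/-- On the `q`-new subspace `U_q = - W`. -/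
theorem heckeULin_eq_neg_alLin (hq : q ≠ 0) {A : GL (Fin 2) ℝ} (hA : IsAL q M A)
    (h : CuspForm (Gamma0 (q * M)) 2) (hh : h ∈ qNewSub hq hA) :
    CuspForm.heckeULin 2 (Dvd.intro M rfl) h = -alLin 2 hq hA h := by
  unfold qNewSub at hh
  rw [Submodule.mem_inf, LinearMap.mem_ker, LinearMap.mem_ker] at hh
  have h2 := hh.2
  simp only [LinearMap.add_apply] at h2
  exact eq_neg_of_add_eq_zero_right h2

/-- On the `q`-new subspace `U_q² = 1`. -/
theorem heckeULin_sq_of_mem_qNewSub (hq : q ≠ 0) {A : GL (Fin 2) ℝ} (hA : IsAL q M A)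
    (h : CuspForm (Gamma0 (q * M)) 2) (hh : h ∈ qNewSub hq hA) :
    CuspForm.heckeULin 2 (Dvd.intro M rfl) (CuspForm.heckeULin 2 (Dvd.intro M rfl) h) = h := by
  rw [heckeULin_eq_neg_alLin hq hA h hh, map_neg,
    heckeULin_eq_neg_alLin hq hA _ (alLin_mem_qNewSub hq hA h hh), neg_neg, alLin_alLin]

/-- The `q`-new subspace is stable under the whole Hecke family. -/
theorem qNewSub_stable (hq : q.Prime) {A : GL (Fin 2) ℝ} (hA : IsAL q M A) (p : Nat.Primes)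
    (h : CuspForm (Gamma0 (q * M)) 2) (hh : h ∈ qNewSub hq.ne_zero hA) :
    H683.heckeFamily (q * M) p h ∈ qNewSub hq.ne_zero hA := by
  have hq0 := hq.ne_zero
  by_cases hpN : (p : ℕ) ∣ q * M
  · rw [H683.heckeFamily_of_dvd p hpN]
    by_cases hpq : (p : ℕ) = q
    · -- `U_q = -W`
      have hU : CuspForm.heckeULin 2 hpN h = -alLin 2 hq0 hA h := by
        have := heckeULin_eq_neg_alLin hq0 hA h hh
        apply DFunLike.coe_injective
        have h' := congrArg (fun F : CuspForm (Gamma0 (q * M)) 2 => (⇑F : ℍ → ℂ)) this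
        simp only [CuspForm.coe_heckeULin_apply] at h' ⊢
        rw [hpq]
        exact h'
      rw [hU]
      exact Submodule.neg_mem _ (alLin_mem_qNewSub hq0 hA h hh)
    · have hpM : (p : ℕ) ∣ M := by
        rcases (Nat.Prime.dvd_mul p.2).mp hpN with h1 | h1
        · exact absurd ((Nat.prime_dvd_prime_iff_eq p.2 hq).mp h1) hpq
        · exact h1
      refine qNewSub_stable_of_commute hq0 hA (CuspForm.heckeULin 2 hpN) ?_ ?_ h hh
      · intro h'
        apply DFunLike.coe_injective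
        rw [CuspForm.coe_heckeULin_apply, coe_alLin, coe_alLin, CuspForm.coe_heckeULin_apply]
        exact (heckeU_slash_AL 2 hq0 p.2 hpM (invUnder_of_slashInvariantFormClass h') hA).symm
      · intro h'
        have := congrArg (fun f : Module.End ℂ (CuspForm (Gamma0 (q * M)) 2) => f h')
          (CuspForm.heckeULin_comm (N := q * M) 2 hpN (Dvd.intro M rfl)).eq
        simpa using this
  · rw [H683.heckeFamily_of_not_dvd p hpN]
    refine qNewSub_stable_of_commute hq0 hA (CuspForm.heckeTLin 2 p.2 hpN) ?_ ?_ h hh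
    · intro h'
      apply DFunLike.coe_injective
      rw [CuspForm.coe_heckeTLin_apply, coe_alLin, coe_alLin, CuspForm.coe_heckeTLin_apply]
      exact (heckeT_slash_AL 2 hq0 p.2 hpN (invUnder_of_slashInvariantFormClass h') hA).symm
    · intro h'
      have := congrArg (fun f : Module.End ℂ (CuspForm (Gamma0 (q * M)) 2) => f h')
        (CuspForm.heckeTLin_heckeULin_comm (N := q * M) 2 p.2 hpN (Dvd.intro M rfl)).eq
      simpa using this

/-- **Extraction of a `q`-new normalized eigenform**, level written `q * M`. -/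
theorem exists_isNewAt_eigenform_mul (hq : q.Prime) {A : GL (Fin 2) ℝ} (hA : IsAL q M A)
    (P : ℕ → Prop) (b : ℕ → ℂ) (f : CuspForm (Gamma0 (q * M)) 2) (hf : f ≠ 0)
    (hfK : f ∈ qNewSub hq.ne_zero hA)
    (heig : ∀ ℓ : ℕ, ℓ.Prime → ¬ ℓ ∣ q * M → P ℓ → heckeT 2 ℓ ⇑f = b ℓ • ⇑f) :
    ∃ g : CuspForm (Gamma0 (q * M)) 2, g.IsNormalizedEigenform ∧
      (∀ ℓ : ℕ, ℓ.Prime → ¬ ℓ ∣ q * M → P ℓ → qCoeff ⇑g ℓ = b ℓ) ∧ g.IsNewAt q ∧
      g ∈ qNewSub hq.ne_zero hA := by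
  have hq0 := hq.ne_zero
  haveI := H683.finiteDimensional_cuspForm (q * M) 2
  set E : Submodule ℂ (CuspForm (Gamma0 (q * M)) 2) :=
    qNewSub hq0 hA ⊓ H683.eigenSub (q * M) P b with hE
  have hEne : E ≠ ⊥ := by
    intro hbot
    have : f ∈ (⊥ : Submodule ℂ (CuspForm (Gamma0 (q * M)) 2)) := hbot ▸ ⟨hfK, heig⟩
    exact hf (by simpa using this)
  obtain ⟨g₀, hg₀E, hg₀, hg₀eig⟩ := H683.exists_common_eigenvector (H683.heckeFamily (q * M))
    H683.heckeFamily_commute E hEne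
    (fun p v hv => ⟨qNewSub_stable hq hA p v hv.1, H683.eigenSub_stable P b p v hv.2⟩)
  have hT : ∀ p : ℕ, p.Prime → ¬ p ∣ q * M → ∃ c : ℂ, heckeT 2 p ⇑g₀ = c • ⇑g₀ := by
    intro p hp hpM
    obtain ⟨c, hc⟩ := hg₀eig ⟨p, hp⟩
    rw [H683.heckeFamily_of_not_dvd ⟨p, hp⟩ hpM] at hc
    refine ⟨c, ?_⟩
    have := congrArg (fun g : CuspForm (Gamma0 (q * M)) 2 => (⇑g : ℍ → ℂ)) hc
    simpa using this
  have hU : ∀ p : ℕ, p.Prime → p ∣ q * M → ∃ c : ℂ, heckeU 2 p ⇑g₀ = c • ⇑g₀ := by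
    intro p hp hpM
    obtain ⟨c, hc⟩ := hg₀eig ⟨p, hp⟩
    rw [H683.heckeFamily_of_dvd ⟨p, hp⟩ hpM] at hc
    refine ⟨c, ?_⟩
    have := congrArg (fun g : CuspForm (Gamma0 (q * M)) 2 => (⇑g : ℍ → ℂ)) hc
    simpa using this
  have h1 : qCoeff ⇑g₀ 1 ≠ 0 := fun h0 =>
    hg₀ (H683.eq_zero_of_eigen_of_coeff_one_eq_zero g₀ hT hU h0)
  set c₀ : ℂ := (qCoeff ⇑g₀ 1)⁻¹ with hc₀
  have hmem : c₀ • g₀ ∈ E := Submodule.smul_mem _ _ hg₀E
  have hnorm : qCoeff ⇑(c₀ • g₀) 1 = 1 := by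
    rw [H683.qCoeff_smul_cusp, hc₀, inv_mul_cancel₀ h1]
  have hgE : (c₀ • g₀).IsNormalizedEigenform := by
    apply H683.isNormalizedEigenform_of_eigen _ hnorm
    · intro p hp hpM
      obtain ⟨c, hc⟩ := hT p hp hpM
      exact ⟨c, by rw [FunLike.coe_smul, heckeT_smul, hc, smul_comm]⟩
    · intro p hp hpM
      obtain ⟨c, hc⟩ := hU p hp hpM
      exact ⟨c, by rw [FunLike.coe_smul, heckeU_smul, hc, smul_comm]⟩
  refine ⟨c₀ • g₀, hgE, ?_, ?_, hmem.1⟩
  · intro ℓ hℓ hℓM hPℓ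
    exact (H683.eigenvalue_T_eq_coeff (c₀ • g₀) hnorm hℓ (b ℓ) (hmem.2 ℓ hℓ hℓM hPℓ)).symm
  · -- `a_q² = 1`
    have hUq := H683.heckeULin_eq_of_eigenform hgE hq (Dvd.intro M rfl)
    have hsq := heckeULin_sq_of_mem_qNewSub hq0 hA (c₀ • g₀) hmem.1
    rw [hUq, map_smul, hUq, smul_smul] at hsq
    have hne : c₀ • g₀ ≠ 0 := hgE.ne_zero
    have h2 : (qCoeff ⇑(c₀ • g₀) q * qCoeff ⇑(c₀ • g₀) q - 1) • (c₀ • g₀) = 0 := by
      rw [sub_smul, one_smul, hsq, sub_self]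
    rcases smul_eq_zero.mp h2 with h | h
    · show qCoeff ⇑(c₀ • g₀) q ^ 2 = 1
      rw [pow_two]
      exact sub_eq_zero.mp h
    · exact absurd h hne

end

/-- **Extraction of a `q`-new normalized eigenform** (forms side of level raising, S41):
`q ∥ L`, `A` an Atkin–Lehner matrix at `q` for the level `L`; a nonzero cusp form `f` of level `L`
killed by both traces (`f + U_q (f ∣ A) = 0`, `f ∣ A + U_q f = 0`) which is an eigenvector of the
`T_ℓ`, `ℓ ∤ L`, `P ℓ`, with eigenvalues `b ℓ`, gives a normalized eigenform `g` of level `L`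
with `a_ℓ(g) = b ℓ` (same `ℓ`) and `a_q(g)² = 1`. -/
theorem exists_isNewAt_eigenform {L q : ℕ} [NeZero L] (hq : q.Prime) (hqL : q ∣ L)
    {A : GL (Fin 2) ℝ} (hA : IsAL q (L / q) A)
    (P : ℕ → Prop) (b : ℕ → ℂ) (f : CuspForm (Gamma0 L) 2) (hf : f ≠ 0)
    (h1 : (⇑f : ℍ → ℂ) + heckeU 2 q (⇑f ∣[(2 : ℤ)] A) = 0)
    (h2 : (⇑f ∣[(2 : ℤ)] A) + heckeU 2 q ⇑f = 0)
    (heig : ∀ ℓ : ℕ, ℓ.Prime → ¬ ℓ ∣ L → P ℓ → heckeT 2 ℓ ⇑f = b ℓ • ⇑f) :
    ∃ g : CuspForm (Gamma0 L) 2, g.IsNormalizedEigenform ∧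
      (∀ ℓ : ℕ, ℓ.Prime → ¬ ℓ ∣ L → P ℓ → qCoeff ⇑g ℓ = b ℓ) ∧ g.IsNewAt q ∧
      (⇑g : ℍ → ℂ) + heckeU 2 q (⇑g ∣[(2 : ℤ)] A) = 0 ∧
      (⇑g ∣[(2 : ℤ)] A) + heckeU 2 q ⇑g = 0 := by
  obtain ⟨M, rfl⟩ := hqL
  rw [Nat.mul_div_cancel_left M hq.pos] at hA
  obtain ⟨g, hg, hgb, hgq, hgK⟩ := exists_isNewAt_eigenform_mul hq hA P b f hf
    ((mem_qNewSub hq.ne_zero hA f).mpr ⟨h1, h2⟩) heig
  exact ⟨g, hg, hgb, hgq, ((mem_qNewSub hq.ne_zero hA g).mp hgK).1,
    ((mem_qNewSub hq.ne_zero hA g).mp hgK).2⟩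

end Fermat.Agent.Lib.Newform.H23
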