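import Fermat.Agent.Lib.Newform.H23.Spec
import Fermat.Agent.Lib.Newform.H23.EigLift
import Fermat.Agent.Lib.Newform.H683.Extract

/-!
# NEWFORM library (helper23) — `OldEigen`

An eigenvector of the good Hecke operators which lies in the old space `Σ_{p ∣ N} B_p S(N/p)`
forces the eigensystem to occur at some level `N / p`.  Pure linear algebra on
`⨁_{p ∣ N} S(N/p)` (`exists_eigenvector_of_quotient`) + extraction (helper683 E2); the maps
`B_p` are never constructed, only their `q`-coefficients are used.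
-/

set_option autoImplicit false

open CongruenceSubgroup ModularFormClass ModularForm UpperHalfPlane

namespace Fermat.Agent.Lib.Newform.H23

open Fermat.Agent.Lib.Newform

section OldSpace

variable (N : ℕ) [NeZero N]

theorem div_primeFactor_ne_zero (p : N.primeFactors) : N / (p : ℕ) ≠ 0 := by
  have hp := Nat.mem_primeFactors.mp p.2
  have hpos : 0 < N / (p : ℕ) :=
    Nat.div_pos (Nat.le_of_dvd (Nat.pos_of_ne_zero hp.2.2) hp.2.1) hp.1.pos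
  exact hpos.ne'

instance neZero_div_primeFactor (p : N.primeFactors) : NeZero (N / (p : ℕ)) :=
  ⟨div_primeFactor_ne_zero N p⟩

/-- The source of the old space: `⨁_{p ∣ N} S(N/p)`. -/
abbrev OldSrc : Type := (p : N.primeFactors) → CuspForm (Gamma0 (N / (p : ℕ))) 2

/-- The `n`-th `q`-coefficient of `Σ_p B_p g_p`, as a linear functional of `(g_p)`. -/
noncomputable def oldQL (n : ℕ) : OldSrc N →ₗ[ℂ] ℂ :=
  ∑ p : N.primeFactors, if (p : ℕ) ∣ n then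
    (H683.coeffLin (N / (p : ℕ)) 2 (n / (p : ℕ))).comp (LinearMap.proj p) else 0

theorem oldQL_apply (n : ℕ) (g : OldSrc N) :
    oldQL N n g = ∑ p : N.primeFactors,
      if (p : ℕ) ∣ n then qCoeff ⇑(g p) (n / (p : ℕ)) else 0 := by
  rw [oldQL, LinearMap.sum_apply]
  refine Finset.sum_congr rfl (fun p _ => ?_)
  split_ifs <;> simp

/-- The diagonal action of `T_ℓ` (for any prime `ℓ`; it is `T_ℓ` on `S(N/p)` when `ℓ ∤ N`). -/
noncomputable def oldT (ℓ : Nat.Primes) : Module.End ℂ (OldSrc N) :=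
  LinearMap.pi fun p => (H683.heckeFamily (N / (p : ℕ)) ℓ).comp (LinearMap.proj p)

theorem oldT_apply (ℓ : Nat.Primes) (g : OldSrc N) (p : N.primeFactors) :
    oldT N ℓ g p = H683.heckeFamily (N / (p : ℕ)) ℓ (g p) := rfl

theorem oldT_commute (ℓ ℓ' : Nat.Primes) : Commute (oldT N ℓ) (oldT N ℓ') := by
  apply LinearMap.ext
  intro g
  funext p
  have := congrArg (fun f : Module.End ℂ (CuspForm (Gamma0 (N / (p : ℕ))) 2) => f (g p))
    (H683.heckeFamily_commute (M := N / (p : ℕ)) ℓ ℓ').eq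
  simpa [oldT_apply] using this

theorem not_dvd_div_of_not_dvd {ℓ : ℕ} (hℓN : ¬ ℓ ∣ N) (p : N.primeFactors) :
    ¬ ℓ ∣ N / (p : ℕ) := fun h =>
  hℓN (h.trans (Nat.div_dvd_of_dvd (Nat.mem_primeFactors.mp p.2).2.1))

theorem oldT_apply_coe (ℓ : Nat.Primes) (hℓN : ¬ (ℓ : ℕ) ∣ N) (g : OldSrc N)
    (p : N.primeFactors) :
    (⇑(oldT N ℓ g p) : ℍ → ℂ) = heckeT 2 (ℓ : ℕ) ⇑(g p) := by
  rw [oldT_apply, H683.heckeFamily_of_not_dvd ℓ (not_dvd_div_of_not_dvd N hℓN p),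
    CuspForm.coe_heckeTLin_apply]

/-- The coefficients of `Σ_p B_p (T_ℓ g_p)` are those of `T_ℓ (Σ_p B_p g_p)`. -/
theorem oldQL_oldT (ℓ : Nat.Primes) (hℓN : ¬ (ℓ : ℕ) ∣ N) (g : OldSrc N) (n : ℕ) :
    oldQL N n (oldT N ℓ g) = coeffHeckeT 2 (ℓ : ℕ) (fun m => oldQL N m g) n := by
  rw [coeffHeckeT_apply]
  simp only [oldQL_apply]
  have hrw : (if (ℓ : ℕ) ∣ n then ((ℓ : ℕ) : ℂ) ^ ((2 : ℤ) - 1) *
        ∑ p : N.primeFactors, (if (p : ℕ) ∣ n / (ℓ : ℕ) then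
          qCoeff ⇑(g p) (n / (ℓ : ℕ) / (p : ℕ)) else 0) else 0) =
      ∑ p : N.primeFactors, (if (ℓ : ℕ) ∣ n then ((ℓ : ℕ) : ℂ) ^ ((2 : ℤ) - 1) *
        (if (p : ℕ) ∣ n / (ℓ : ℕ) then qCoeff ⇑(g p) (n / (ℓ : ℕ) / (p : ℕ)) else 0) else 0) := by
    split_ifs
    · rw [Finset.mul_sum]
    · simp
  rw [hrw, ← Finset.sum_add_distrib]
  refine Finset.sum_congr rfl (fun p _ => ?_)
  have hp := Nat.mem_primeFactors.mp p.2
  have hpℓ : (p : ℕ) ≠ (ℓ : ℕ) := fun h => hℓN (h ▸ hp.2.1)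
  have hcop : Nat.Coprime (p : ℕ) (ℓ : ℕ) := (Nat.coprime_primes hp.1 ℓ.2).mpr hpℓ
  rw [oldT_apply_coe N ℓ hℓN g p, H683.qCoeff_heckeT_cusp 2 (g p) ℓ.2.ne_zero,
    coeffHeckeT_apply]
  by_cases hpn : (p : ℕ) ∣ n
  · have hpnℓ : (p : ℕ) ∣ n * (ℓ : ℕ) := hpn.mul_right _
    rw [if_pos hpn, if_pos hpnℓ, Nat.div_mul_right_comm hpn]
    congr 1
    by_cases hℓn : (ℓ : ℕ) ∣ n
    · have h1 : (ℓ : ℕ) ∣ n / (p : ℕ) := by
        have : (ℓ : ℕ) ∣ (p : ℕ) * (n / (p : ℕ)) := by rwa [Nat.mul_div_cancel' hpn]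
        exact (hcop.symm.dvd_mul_left).mp this
      have h2 : (p : ℕ) ∣ n / (ℓ : ℕ) := by
        have : (p : ℕ) ∣ (ℓ : ℕ) * (n / (ℓ : ℕ)) := by rwa [Nat.mul_div_cancel' hℓn]
        exact (hcop.dvd_mul_left).mp this
      rw [if_pos h1, if_pos hℓn, if_pos h2, Nat.div_div_eq_div_mul, Nat.div_div_eq_div_mul,
        mul_comm (p : ℕ) (ℓ : ℕ)]
    · have h1 : ¬ (ℓ : ℕ) ∣ n / (p : ℕ) := fun h => hℓn (h.trans (Nat.div_dvd_of_dvd hpn))
      rw [if_neg h1, if_neg hℓn]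
  · have hpnℓ : ¬ (p : ℕ) ∣ n * (ℓ : ℕ) := fun h => hpn ((hcop.dvd_mul_right).mp h)
    rw [if_neg hpn, if_neg hpnℓ]
    by_cases hℓn : (ℓ : ℕ) ∣ n
    · have h2 : ¬ (p : ℕ) ∣ n / (ℓ : ℕ) := fun h => hpn (h.trans (Nat.div_dvd_of_dvd hℓn))
      rw [if_pos hℓn, if_neg h2]
      simp
    · rw [if_neg hℓn]
      simp

/-- Families `(g_p)` with `Σ_p B_p g_p ∈ ℂ h`. -/
noncomputable def oldE (h : CuspForm (Gamma0 N) 2) : Submodule ℂ (OldSrc N) where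
  carrier := {g | ∃ c : ℂ, ∀ n, oldQL N n g = c * qCoeff ⇑h n}
  add_mem' := by
    rintro g g' ⟨c, hc⟩ ⟨c', hc'⟩
    exact ⟨c + c', fun n => by rw [map_add, hc n, hc' n, add_mul]⟩
  zero_mem' := ⟨0, fun n => by simp⟩
  smul_mem' := by
    rintro r g ⟨c, hc⟩
    exact ⟨r * c, fun n => by rw [map_smul, hc n, smul_eq_mul, mul_assoc]⟩

/-- Families `(g_p)` with `Σ_p B_p g_p = 0`. -/
noncomputable def oldF : Submodule ℂ (OldSrc N) where
  carrier := {g | ∀ n, oldQL N n g = 0}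
  add_mem' := by
    intro g g' hg hg' n
    rw [map_add, hg n, hg' n, add_zero]
  zero_mem' := fun n => by simp
  smul_mem' := by
    intro r g hg n
    rw [map_smul, hg n, smul_zero]

end OldSpace

/-- **OLD-EIGEN**. -/
theorem oldEigen : OldEigen := by
  intro N _ h hh a heig hold
  obtain ⟨g, hg⟩ := hold
  haveI : ∀ p : N.primeFactors, FiniteDimensional ℂ (CuspForm (Gamma0 (N / (p : ℕ))) 2) :=
    fun p => H683.finiteDimensional_cuspForm (N / (p : ℕ)) 2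
  -- the given family
  set g₀ : OldSrc N := fun p => g p with hg₀
  have hg₀Q : ∀ n, oldQL N n g₀ = qCoeff ⇑h n := by
    intro n
    rw [oldQL_apply, hg n]
    exact Finset.sum_coe_sort N.primeFactors
      (fun p => if p ∣ n then qCoeff ⇑(g p) (n / p) else 0)
  -- some coefficient of `h` is nonzero
  have hcoef : ∃ n, qCoeff ⇑h n ≠ 0 := by
    by_contra hcon
    push Not at hcon
    exact hh (H683.cusp_eq_zero_of_qCoeff 2 h hcon)
  obtain ⟨n₀, hn₀⟩ := hcoef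
  -- eigen-relation for the coefficients of `h`
  have hheig : ∀ (ℓ : Nat.Primes), ¬ (ℓ : ℕ) ∣ N → ∀ n,
      coeffHeckeT 2 (ℓ : ℕ) (qCoeff ⇑h) n = a ℓ * qCoeff ⇑h n := by
    intro ℓ hℓN n
    have h1 := heig ℓ ℓ.2 hℓN
    have h2 := congrArg (fun F : CuspForm (Gamma0 N) 2 => qCoeff ⇑F n) h1
    simp only [CuspForm.coe_heckeTLin_apply] at h2
    rw [H683.qCoeff_heckeT_cusp 2 h ℓ.2.ne_zero, H683.qCoeff_smul_cusp] at h2
    exact h2
  -- apply the linear algebra lemma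
  obtain ⟨v, hvE, hv0, hveig⟩ := exists_eigenvector_of_quotient
    (ι := {ℓ : Nat.Primes // ¬ (ℓ : ℕ) ∣ N}) (fun ℓ => oldT N ℓ.1)
    (fun ℓ ℓ' => oldT_commute N ℓ.1 ℓ'.1) (fun ℓ => a ℓ.1) (oldE N h) (oldF N)
    (fun v hv => ⟨0, fun n => by rw [hv n, zero_mul]⟩)
    (fun hle => by
      have hmem : g₀ ∈ oldE N h := ⟨1, fun n => by rw [hg₀Q n, one_mul]⟩
      have := hle hmem n₀
      rw [hg₀Q n₀] at this
      exact hn₀ this)
    (by
      rintro ⟨ℓ, hℓN⟩ v ⟨c, hc⟩ n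
      rw [map_sub, map_smul, oldQL_oldT N ℓ hℓN v n]
      have : (fun m => oldQL N m v) = fun m => c * qCoeff ⇑h m := funext hc
      rw [this, hc n, coeffHeckeT_apply]
      have h3 := hheig ℓ hℓN n
      rw [coeffHeckeT_apply] at h3
      have h4 : c * qCoeff ⇑h (n * (ℓ : ℕ)) + (if (ℓ : ℕ) ∣ n then
          ((ℓ : ℕ) : ℂ) ^ ((2 : ℤ) - 1) * (c * qCoeff ⇑h (n / (ℓ : ℕ))) else 0) =
          c * (qCoeff ⇑h (n * (ℓ : ℕ)) + if (ℓ : ℕ) ∣ n then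
            ((ℓ : ℕ) : ℂ) ^ ((2 : ℤ) - 1) * qCoeff ⇑h (n / (ℓ : ℕ)) else 0) := by
        split_ifs <;> ring
      rw [h4, h3, smul_eq_mul]
      ring)
  -- a nonzero component
  have hcomp : ∃ p : N.primeFactors, v p ≠ 0 := by
    by_contra hcon
    push Not at hcon
    exact hv0 (funext hcon)
  obtain ⟨p, hp⟩ := hcomp
  have hpmem := Nat.mem_primeFactors.mp p.2
  obtain ⟨G, hG, hGa⟩ := H683.exists_normalizedEigenform_of_eigenvector
    (M := N / (p : ℕ)) (fun ℓ => ¬ ℓ ∣ N) a (v p) hp (by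
      intro ℓ hℓ _ hℓN
      have h1 := congrFun (hveig ⟨⟨ℓ, hℓ⟩, hℓN⟩) p
      have h2 := congrArg (fun F : CuspForm (Gamma0 (N / (p : ℕ))) 2 => (⇑F : ℍ → ℂ)) h1
      simp only [Pi.smul_apply] at h2
      rw [oldT_apply_coe N ⟨ℓ, hℓ⟩ hℓN v p] at h2
      simpa using h2)
  exact ⟨p, hpmem.1, hpmem.2.1, G, hG,
    fun ℓ hℓ hℓN => hGa ℓ hℓ (not_dvd_div_of_not_dvd N hℓN p) hℓN⟩

end Fermat.Agent.Lib.Newform.H23
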