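import Fermat.Agent.Lib.Newform.H23.MultOne
import Fermat.Agent.Lib.Newform.H958.MainOf

/-!
# NEWFORM library (helper23) — the `q`-new kernel, from `TraceAL`

`qNewKernel_of : TraceAL → QNewKernel`; light versions of `Occurs`, `Incl`, `Stab`
(closure: Mathlib + Prelude + `H683` + `H958.Spec/MainOf` only).
-/

set_option autoImplicit false

open CongruenceSubgroup ModularFormClass ModularForm UpperHalfPlane

namespace Fermat.Agent.Lib.Newform.H23

open Fermat.Agent.Lib.Newform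

/-- `Occurs` (light adapter around helper683's E2). -/
theorem occurs : H958.Occurs := by
  intro M _ h hh P a heig
  exact H683.exists_normalizedEigenform_of_eigenvector (M := M) (fun ℓ => ℓ ∈ P) a h hh
    (fun ℓ hℓ hℓM hP => by
      have := congrArg (fun F : CuspForm (Gamma0 M) 2 => (⇑F : ℍ → ℂ)) (heig ℓ hℓ hℓM hP)
      simpa using this)

theorem gamma0_le_gamma0_of_dvd {M C : ℕ} (h : M ∣ C) : Gamma0 C ≤ Gamma0 M := by
  intro γ hγ
  rw [Gamma0_mem] at hγ ⊢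
  exact (ZMod.intCast_zmod_eq_zero_iff_dvd _ _).mpr
    ((Int.natCast_dvd_natCast.mpr h).trans ((ZMod.intCast_zmod_eq_zero_iff_dvd _ _).mp hγ))

/-- Level inclusion `S(M) → S(C)`, `M ∣ C`, as a linear map. -/
noncomputable def inclLin {M C : ℕ} (hMC : M ∣ C) :
    CuspForm (Gamma0 M) 2 →ₗ[ℂ] CuspForm (Gamma0 C) 2 where
  toFun g :=
    { toFun := ⇑g
      slash_action_eq' := fun γ hγ => SlashInvariantFormClass.slash_action_eq g γ
        (Subgroup.map_mono (gamma0_le_gamma0_of_dvd hMC) hγ)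
      holo' := CuspFormClass.holo g
      zero_at_cusps' := fun hc => CuspFormClass.zero_at_cusps g
        (hc.mono (Subgroup.map_mono (gamma0_le_gamma0_of_dvd hMC))) }
  map_add' _ _ := rfl
  map_smul' _ _ := rfl

@[simp] theorem coe_inclLin {M C : ℕ} (hMC : M ∣ C) (g : CuspForm (Gamma0 M) 2) :
    (⇑(inclLin hMC g) : ℍ → ℂ) = ⇑g := rfl

/-- `Incl` (light). -/
theorem incl : H958.Incl := fun _ _ hMC g => ⟨inclLin hMC g, rfl⟩

/-- `Descent`. -/
theorem descent : H958.Descent := H958.descent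

/-- `Stab`. -/
theorem stab : H958.Stab := H958.stab_of eigenT incl occurs

/-- The unique cusp form with a given underlying function, as a linear map, when every function
in the image of a linear map `Φ` (into functions) is the underlying function of a cusp form. -/
theorem exists_linearMap_of_coe {N M : ℕ} (Φ : CuspForm (Gamma0 N) 2 → (ℍ → ℂ))
    (hadd : ∀ f f', Φ (f + f') = Φ f + Φ f') (hsmul : ∀ (c : ℂ) f, Φ (c • f) = c • Φ f)
    (hex : ∀ f, ∃ g : CuspForm (Gamma0 M) 2, (⇑g : ℍ → ℂ) = Φ f) :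
    ∃ t : CuspForm (Gamma0 N) 2 →ₗ[ℂ] CuspForm (Gamma0 M) 2, ∀ f, (⇑(t f) : ℍ → ℂ) = Φ f := by
  choose t ht using hex
  refine ⟨{ toFun := t, map_add' := ?_, map_smul' := ?_ }, ht⟩
  · intro f f'
    apply DFunLike.coe_injective
    rw [ht, FunLike.coe_add, ht, ht, hadd]
  · intro c f
    apply DFunLike.coe_injective
    rw [ht, RingHom.id_apply, FunLike.coe_smul, ht, hsmul]

/-- **Q-NEW-KERNEL** from `TraceAL`. -/
theorem qNewKernel_of (hT : H958.TraceAL) : QNewKernel := by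
  intro N q _ hq hqN hq2
  obtain ⟨W, hWT, hTr, hTr'⟩ := hT N q hq hqN hq2
  have hper := CongruenceSubgroup.one_mem_strictPeriods_Gamma0 N
  obtain ⟨tr, htr⟩ := exists_linearMap_of_coe (N := N) (M := N / q)
    (fun f => ⇑f + heckeU 2 q ⇑(W f))
    (fun f f' => by
      simp only [map_add, FunLike.coe_add, heckeU_add]
      abel)
    (fun c f => by
      simp only [map_smul, FunLike.coe_smul, heckeU_smul, smul_add])
    hTr
  obtain ⟨tr', htr'⟩ := exists_linearMap_of_coe (N := N) (M := N / q)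
    (fun f => ⇑(W f) + heckeU 2 q ⇑f)
    (fun f f' => by
      simp only [map_add, FunLike.coe_add, heckeU_add]
      abel)
    (fun c f => by
      simp only [map_smul, FunLike.coe_smul, heckeU_smul, smul_add])
    hTr'
  have hcop : ∀ ℓ : ℕ, ℓ.Prime → ¬ ℓ ∣ N → Nat.Coprime ℓ q := by
    intro ℓ hℓ hℓN
    rw [Nat.coprime_primes hℓ hq]
    rintro rfl
    exact hℓN hqN
  -- `tr`, `tr'` commute with `T_ℓ` at the level of functions
  have htrT : ∀ (ℓ : ℕ) (hℓ : ℓ.Prime) (hℓN : ¬ ℓ ∣ N) (f : CuspForm (Gamma0 N) 2),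
      (⇑(tr (CuspForm.heckeTLin 2 hℓ hℓN f)) : ℍ → ℂ) = heckeT 2 ℓ ⇑(tr f) := by
    intro ℓ hℓ hℓN f
    rw [htr, htr, hWT ℓ hℓ hℓN f, CuspForm.coe_heckeTLin_apply, CuspForm.coe_heckeTLin_apply,
      heckeT_add, ModularFormClass.heckeT_heckeU_comm (W f) hper (hcop ℓ hℓ hℓN)]
  have htr'T : ∀ (ℓ : ℕ) (hℓ : ℓ.Prime) (hℓN : ¬ ℓ ∣ N) (f : CuspForm (Gamma0 N) 2),
      (⇑(tr' (CuspForm.heckeTLin 2 hℓ hℓN f)) : ℍ → ℂ) = heckeT 2 ℓ ⇑(tr' f) := by
    intro ℓ hℓ hℓN f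
    rw [htr', htr', hWT ℓ hℓ hℓN f, CuspForm.coe_heckeTLin_apply, CuspForm.coe_heckeTLin_apply,
      heckeT_add, ModularFormClass.heckeT_heckeU_comm f hper (hcop ℓ hℓ hℓN)]
  have hUU : ∀ f : CuspForm (Gamma0 N) 2, tr f = 0 → tr' f = 0 →
      heckeU 2 q (heckeU 2 q ⇑f) = ⇑f := by
    intro f h0 h0'
    have h1 : (⇑f : ℍ → ℂ) + heckeU 2 q ⇑(W f) = 0 := by
      rw [← htr, h0]; rfl
    have h2 : (⇑(W f) : ℍ → ℂ) + heckeU 2 q ⇑f = 0 := by
      rw [← htr', h0']; rfl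
    have h3 : (⇑(W f) : ℍ → ℂ) = -heckeU 2 q ⇑f := eq_neg_of_add_eq_zero_left h2
    rw [h3, heckeU_neg] at h1
    have h4 := eq_neg_of_add_eq_zero_left h1
    rw [neg_neg] at h4
    exact h4.symm
  refine ⟨W, tr, tr', htr, htr', ?_, hUU, ?_, ?_⟩
  · intro ℓ hℓ hℓN f h0 h0'
    constructor
    · apply DFunLike.coe_injective
      rw [htrT, h0, FunLike.coe_zero, heckeT_zero]
    · apply DFunLike.coe_injective
      rw [htr'T, h0', FunLike.coe_zero, heckeT_zero]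
  · intro g hg h0 h0'
    have hU := H683.heckeU_eq_of_eigenform hg hq hqN
    have h1 := hUU g h0 h0'
    rw [hU, heckeU_smul, hU, smul_smul] at h1
    have hgne : (⇑g : ℍ → ℂ) ≠ 0 := H958.coe_ne_zero_of_isNormalizedEigenform hg
    have h2 : (qCoeff ⇑g q * qCoeff ⇑g q - 1) • (⇑g : ℍ → ℂ) = 0 := by
      rw [sub_smul, one_smul, h1, sub_self]
    rcases smul_eq_zero.mp h2 with h | h
    · show qCoeff ⇑g q ^ 2 = 1
      rw [pow_two]
      exact sub_eq_zero.mp h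
    · exact absurd h hgne
  · intro g hg
    have hge := hg.1
    have hTg : ∀ ℓ : ℕ, ℓ.Prime → ¬ ℓ ∣ N →
        heckeT 2 ℓ (⇑g : ℍ → ℂ) = qCoeff ⇑g ℓ • (⇑g : ℍ → ℂ) :=
      fun ℓ hℓ hℓN => H683.heckeT_eq_of_eigenform hge hℓ hℓN
    have hTlin : ∀ (ℓ : ℕ) (hℓ : ℓ.Prime) (hℓN : ¬ ℓ ∣ N),
        CuspForm.heckeTLin 2 hℓ hℓN g = qCoeff ⇑g ℓ • g :=
      fun ℓ hℓ hℓN => H683.heckeTLin_eq_of_eigenform hge hℓ hℓN
    constructor
    · apply H958.eq_zero_of_level_div occurs hq hg (tr g)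
      intro ℓ hℓ hℓN
      rw [← htrT ℓ hℓ hℓN g, hTlin ℓ hℓ hℓN, map_smul, FunLike.coe_smul]
    · apply H958.eq_zero_of_level_div occurs hq hg (tr' g)
      intro ℓ hℓ hℓN
      rw [← htr'T ℓ hℓ hℓN g, hTlin ℓ hℓ hℓN, map_smul, FunLike.coe_smul]

/-- `BadCoeffAt` and `BadCoeff` from the two open leaves. -/
theorem badCoeffAt_of (hL : H958.LowerU) (hT : H958.TraceAL) : H958.BadCoeffAt :=
  H958.badCoeffAt_of eigenT eigenU occurs hL hT

theorem badCoeff_of (hL : H958.LowerU) (hT : H958.TraceAL) : H958.BadCoeff :=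
  H958.badCoeff_of (badCoeffAt_of hL hT)

end Fermat.Agent.Lib.Newform.H23
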