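import Fermat.Agent.Lib.Newform.H958.Spec

/-!
# Shared library NEWFORM — interface, part 2 (row-lead helper23)

Part 1 is `Fermat.Agent.Lib.Newform.H958.Spec` (leaves `EigenT EigenU Incl Occurs LowerU TraceAL`,
targets `BadCoeffAt BadCoeff Descent Stab`).  This file fixes the remaining interface:

* operators: `Raise` (degeneracy map `B_d`, in `q`-coefficients);
* Atkin–Lehner: `Lemma16`, `MainLemma` (all of it *Petersson-free*);
* targets: `MultOne` (same-level multiplicity one for a Prelude-newform),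
  `OldEigen` (an eigenvector in the old space lowers the level),
  `QNewKernel` (on the kernel of the two traces at `q ∥ N` one has `a_q ^ 2 = 1`; for S41).

Every statement is a `Prop`-valued definition; a block *proves* `theorem xxx : Xxx` in its own
directory `Fermat/Agent/Lib/Newform/H<seat>/`.  All coefficients are the Prelude's
`ModularFormClass.qCoeff` of the underlying function, so statements at different levels compare
by `rfl`-transport of functions (`Incl`).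
-/

set_option autoImplicit false

open CongruenceSubgroup
open scoped MatrixGroups

namespace Fermat.Agent.Lib.Newform.H23

open ModularFormClass

/-- **RAISE**: the degeneracy map `B_d`, `(B_d g)(τ) = g(dτ)`, from level `M` to any level `C`
with `d * M ∣ C`:  `a_n(B_d g) = a_{n/d}(g)` if `d ∣ n`, and `0` otherwise. -/
def Raise : Prop :=
  ∀ (M d C : ℕ) [NeZero C], d * M ∣ C → ∀ g : CuspForm (Gamma0 M) 2,
    ∃ h : CuspForm (Gamma0 C) 2, ∀ n : ℕ,
      qCoeff h n = if d ∣ n then qCoeff g (n / d) else 0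

/-- **LEMMA 16** (Atkin–Lehner): if `q ∣ N` and `a_n(f) = 0` whenever `q ∤ n`, then
`f = B_q g` with `g` of level `N / q` (so `a_n(g) = a_{qn}(f)`). -/
def Lemma16 : Prop :=
  ∀ (N q : ℕ) [NeZero N], q.Prime → q ∣ N → ∀ f : CuspForm (Gamma0 N) 2,
    (∀ n : ℕ, ¬ q ∣ n → qCoeff f n = 0) →
    ∃ g : CuspForm (Gamma0 (N / q)) 2, ∀ n : ℕ, qCoeff g n = qCoeff f (q * n)

/-- **MAIN LEMMA** (Atkin–Lehner): a cusp form of level `N` whose coefficients `a_n` vanish for
all `n` prime to `N` is a sum of `B_p g_p`, `g_p` of level `N / p`, over the primes `p ∣ N`. -/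
def MainLemma : Prop :=
  ∀ (N : ℕ) [NeZero N] (f : CuspForm (Gamma0 N) 2),
    (∀ n : ℕ, n.Coprime N → qCoeff f n = 0) →
    ∃ g : (p : ℕ) → CuspForm (Gamma0 (N / p)) 2, ∀ n : ℕ,
      qCoeff f n = ∑ p ∈ N.primeFactors, if p ∣ n then qCoeff (g p) (n / p) else 0

/-- **MAIN LEMMA, `D`-form** (stretch; needs `Lemma16` at primes `q ∤ N`, where `f = 0`):
the same with vanishing only for `n` prime to `D`, `D` any positive integer. -/
def MainLemmaD : Prop :=
  ∀ (N D : ℕ) [NeZero N], 0 < D → ∀ f : CuspForm (Gamma0 N) 2,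
    (∀ n : ℕ, n.Coprime D → qCoeff f n = 0) →
    ∃ g : (p : ℕ) → CuspForm (Gamma0 (N / p)) 2, ∀ n : ℕ,
      qCoeff f n = ∑ p ∈ N.primeFactors ∩ D.primeFactors,
        if p ∣ n then qCoeff (g p) (n / p) else 0

/-- **OLD-EIGEN**: if a *nonzero* cusp form of level `N` which is an eigenvector of all `T_ℓ`,
`ℓ ∤ N`, with eigenvalues `a ℓ`, is a sum of forms `B_p g_p` (`g_p` of level `N / p`, `p ∣ N`
prime), then the eigensystem `a` occurs for a normalized eigenform of some level `N / p`. -/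
def OldEigen : Prop :=
  ∀ (N : ℕ) [NeZero N] (h : CuspForm (Gamma0 N) 2), h ≠ 0 → ∀ a : ℕ → ℂ,
    (∀ (ℓ : ℕ) (hℓ : ℓ.Prime) (hℓN : ¬ ℓ ∣ N), CuspForm.heckeTLin 2 hℓ hℓN h = a ℓ • h) →
    (∃ g : (p : ℕ) → CuspForm (Gamma0 (N / p)) 2, ∀ n : ℕ,
      qCoeff h n = ∑ p ∈ N.primeFactors, if p ∣ n then qCoeff (g p) (n / p) else 0) →
    ∃ p : ℕ, p.Prime ∧ p ∣ N ∧ ∃ G : CuspForm (Gamma0 (N / p)) 2, G.IsNormalizedEigenform ∧
      ∀ ℓ : ℕ, ℓ.Prime → ¬ ℓ ∣ N → qCoeff G ℓ = a ℓ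

/-- **MULT-ONE** (same level): the good eigenspace of a Prelude-newform is the line through it. -/
def MultOne : Prop :=
  ∀ (N : ℕ) [NeZero N] (f : CuspForm (Gamma0 N) 2), f.IsNewform →
    ∀ h : CuspForm (Gamma0 N) 2,
      (∀ (ℓ : ℕ) (hℓ : ℓ.Prime) (hℓN : ¬ ℓ ∣ N),
        CuspForm.heckeTLin 2 hℓ hℓN h = qCoeff f ℓ • h) →
      h = qCoeff h 1 • f

/-- **MULT-ONE'**: a normalized eigenform of the level of a Prelude-newform `f` with the same
`a_ℓ` for all primes `ℓ ∤ N` is equal to `f` (in particular it has the same `a_q`, `q ∣ N`). -/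
def MultOneEigen : Prop :=
  ∀ (N : ℕ) [NeZero N] (f g : CuspForm (Gamma0 N) 2), f.IsNewform → g.IsNormalizedEigenform →
    (∀ ℓ : ℕ, ℓ.Prime → ¬ ℓ ∣ N → qCoeff g ℓ = qCoeff f ℓ) → g = f

/-- **Q-NEW-KERNEL** (for level raising, S41): for `q ∥ N` there are an involution-like operator
`W` and the two trace maps `tr`, `tr'` to level `N / q` (`tr f = f + U_q W f`,
`tr' f = W f + U_q f`); a normalized eigenform killed by both has `a_q ^ 2 = 1`, and the common
kernel is stable under all `T_ℓ`, `ℓ ∤ N`. -/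
def QNewKernel : Prop :=
  ∀ (N q : ℕ) [NeZero N], q.Prime → q ∣ N → ¬ q ^ 2 ∣ N →
    ∃ (W : CuspForm (Gamma0 N) 2 →ₗ[ℂ] CuspForm (Gamma0 N) 2)
      (tr tr' : CuspForm (Gamma0 N) 2 →ₗ[ℂ] CuspForm (Gamma0 (N / q)) 2),
      (∀ f : CuspForm (Gamma0 N) 2,
        (⇑(tr f) : UpperHalfPlane → ℂ) = ⇑f + ModularForm.heckeU 2 q ⇑(W f)) ∧
      (∀ f : CuspForm (Gamma0 N) 2,
        (⇑(tr' f) : UpperHalfPlane → ℂ) = ⇑(W f) + ModularForm.heckeU 2 q ⇑f) ∧
      (∀ (ℓ : ℕ) (hℓ : ℓ.Prime) (hℓN : ¬ ℓ ∣ N) (f : CuspForm (Gamma0 N) 2),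
        tr f = 0 → tr' f = 0 →
          tr (CuspForm.heckeTLin 2 hℓ hℓN f) = 0 ∧ tr' (CuspForm.heckeTLin 2 hℓ hℓN f) = 0) ∧
      (∀ f : CuspForm (Gamma0 N) 2, tr f = 0 → tr' f = 0 →
        ModularForm.heckeU 2 q (ModularForm.heckeU 2 q ⇑f) = ⇑f) ∧
      (∀ g : CuspForm (Gamma0 N) 2, g.IsNormalizedEigenform → tr g = 0 → tr' g = 0 →
        g.IsNewAt q) ∧
      (∀ g : CuspForm (Gamma0 N) 2, g.IsNewformAt q → tr g = 0 ∧ tr' g = 0)

end Fermat.Agent.Lib.Newform.H23
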