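import Fermat.Agent.Lib.Newform.H923.AL

/-!
# NEWFORM library (helper23) — `U_p` commutes with the Atkin–Lehner operator `W_q`, `p ∣ M`

For the level `q M` (`q` prime, `q ∤ M`), an Atkin–Lehner matrix `A` at `q` and a prime `p ∣ M`:
`(U_p f) ∣ A = U_p (f ∣ A)` for every `Γ₀(q M)`-invariant `f` (any weight).
Same method as helper923's `heckeT_slash_AL`: `heckeMatrix p j * A = A' * heckeMatrix p (σ j)`
with `A'` again an Atkin–Lehner matrix and `σ` an affine bijection of `ℤ/p`.
-/

set_option autoImplicit false

namespace Fermat.Agent.Lib.Newform.H23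

open Matrix UpperHalfPlane ModularForm
open scoped MatrixGroups ModularForm
open Fermat.Agent.Lib.Newform.H923

/-- The Hecke operator `U_p`, `p ∣ M` prime, commutes with the Atkin–Lehner operator at `q`
on `Γ₀(q M)`-invariant functions (`q ∤ M` is implied by the existence of `A`). -/
theorem heckeU_slash_AL (k : ℤ) {q M p : ℕ} (hq : q ≠ 0) (hp : p.Prime) (hpM : p ∣ M)
    {f : ℍ → ℂ} (hf : InvUnder (q * M) k f) {A : GL (Fin 2) ℝ} (hA : IsAL q M A) :
    heckeU k p f ∣[k] A = heckeU k p (f ∣[k] A) := by
  haveI : Fact p.Prime := ⟨hp⟩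
  haveI : NeZero p := ⟨hp.ne_zero⟩
  obtain ⟨a, b, c, d, hInt, h⟩ := id hA
  obtain ⟨M', rfl⟩ := hpM
  -- `q a` is invertible mod `p`, with inverse `d`
  have hunit : ((q : ZMod p) * (a : ZMod p)) * (d : ZMod p) = 1 := by
    have h1 := congrArg (Int.cast : ℤ → ZMod p) h
    push_cast at h1
    rw [ZMod.natCast_self] at h1
    linear_combination h1
  have ha0 : (q : ZMod p) * (a : ZMod p) ≠ 0 := by
    intro h0
    rw [h0, zero_mul] at hunit
    exact zero_ne_one hunit
  have hd0 : (q : ZMod p) * (d : ZMod p) ≠ 0 := by
    intro h0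
    have : ((q : ZMod p) * (a : ZMod p)) * (d : ZMod p) = (a : ZMod p) * ((q : ZMod p) * d) := by
      ring
    rw [this, h0, mul_zero] at hunit
    exact zero_ne_one hunit
  -- the affine bijection `j ↦ (b + j q d) / (q a)`
  let σ : ZMod p ≃ ZMod p :=
    { toFun := fun j => ((b : ZMod p) + j * ((q : ZMod p) * d)) / ((q : ZMod p) * a)
      invFun := fun y => (y * ((q : ZMod p) * a) - (b : ZMod p)) / ((q : ZMod p) * d)
      left_inv := fun j => by
        simp only
        rw [div_mul_cancel₀ _ ha0, add_sub_cancel_left, mul_div_assoc, div_self hd0, mul_one]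
      right_inv := fun y => by
        simp only
        rw [div_mul_cancel₀ _ hd0, add_sub_cancel, mul_div_assoc, div_self ha0, mul_one] }
  have hdetA : (q * a : ℤ) * (q * d) - b * (q * (p * M') * c) = q := by
    push_cast at h ⊢
    linear_combination (q : ℤ) * h
  rw [heckeU_eq_sum_zmod', heckeU_eq_sum_zmod', SlashAction.sum_slash]
  calc ∑ x : ZMod p, (f ∣[k] heckeMatrix p x.val) ∣[k] A
      = ∑ x : ZMod p, (f ∣[k] A) ∣[k] heckeMatrix p (σ x).val := by
        refine Finset.sum_congr rfl fun x _ ↦ ?_
        -- the integer `e`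
        obtain ⟨e, he⟩ : (p : ℤ) ∣ b + x.val * (q * d) -
            (σ x).val * (q * a + x.val * (q * (p * M') * c)) := by
          rw [← ZMod.intCast_zmod_eq_zero_iff_dvd]
          push_cast
          rw [ZMod.natCast_zmod_val, ZMod.natCast_zmod_val, ZMod.natCast_self]
          have key : σ x * ((q : ZMod p) * a) = (b : ZMod p) + x * ((q : ZMod p) * d) :=
            div_mul_cancel₀ _ ha0
          linear_combination (-1 : ZMod p) * key
        have he' : b + (x.val : ℤ) * (q * d) =
            (σ x).val * (q * a + x.val * (q * (p * M') * c)) + p * e := by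
          linear_combination he
        have hdet' : (q * a + (x.val : ℤ) * (q * (p * M') * c)) *
            (q * d - (q * (p * M') * c) * (σ x).val) - e * (p * (q * (p * M') * c)) =
            (q * a : ℤ) * (q * d) - b * (q * (p * M') * c) := by
          linear_combination (q * (p * M') * c : ℤ) * he'
        have hne : (q * a + (x.val : ℤ) * (q * (p * M') * c)) *
            (q * d - (q * (p * M') * c) * (σ x).val) - e * (p * (q * (p * M') * c)) ≠ 0 := by
          rw [hdet', hdetA]
          exact_mod_cast hq
        set A' : GL (Fin 2) ℝ := intGL (q * a + (x.val : ℤ) * (q * (p * M') * c)) e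
          (p * (q * (p * M') * c)) (q * d - (q * (p * M') * c) * (σ x).val) hne with hA'def
        have hA'Int : IsInt A' (q * a + (x.val : ℤ) * (q * (p * M') * c)) e
            (p * (q * (p * M') * c)) (q * d - (q * (p * M') * c) * (σ x).val) :=
          isInt_intGL _ _ _ _ _
        have hInt' : IsInt A (q * a) b (q * (p * M') * c) (q * d) := by
          have := hInt
          push_cast at this
          exact this
        have hmul : heckeMatrix p x.val * A = A' * heckeMatrix p (σ x).val :=
          heckeMatrix_mul_isInt hp.ne_zero hInt' x.val (σ x).val e he' hA'Int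
        have hAL' : IsAL q (p * M') A' := by
          refine isAL_of_dvd hq hA'Int (hdet'.trans hdetA) ?_ ?_ ?_
          · exact ⟨a + x.val * ((p * M') * c), by ring⟩
          · push_cast
            exact ⟨p * c, by ring⟩
          · exact ⟨d - ((p * M') * c) * (σ x).val, by ring⟩
        rw [← SlashAction.slash_mul, hmul, SlashAction.slash_mul, slash_AL_eq hf hA hAL']
    _ = ∑ x : ZMod p, (f ∣[k] A) ∣[k] heckeMatrix p x.val :=
        Equiv.sum_comp σ (fun x ↦ (f ∣[k] A) ∣[k] heckeMatrix p x.val)

end Fermat.Agent.Lib.Newform.H23
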